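import Fermat.Agent.S55.L.H661.NormHensel

/-!
# Norms of units in unramified extensions of complete local rings  (S55, layer L, leaf UNR)

`A` a complete local ring with finite residue field, `B` a finite free `A`-algebra with
`𝔪_A B` a maximal ideal of `B` (the "unramified, one prime above" condition; for discrete
valuation rings this says `𝔪_A B = 𝔪_B`).  Then the norm `Bˣ → Aˣ` is surjective.

* `norm_quotient_mk` : the norm commutes with reduction modulo the maximal ideal.
* `exists_trace_eq_one_of_unramified` : some element of `B` has trace `1`.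
* `unitsMap_norm_surjective_of_unramified` : surjectivity of the norm on units.
* `unitsMap_norm_surjective_of_dvr` : the version for discrete valuation rings, with hypothesis
  `𝔪_A B = 𝔪_B`.
-/

namespace Fermat.Agent.S55.L.H661

open Module IsLocalRing

section Quotient

variable {R S : Type*} [CommRing R] [CommRing S] [Algebra R S]
variable [Module.Free R S] [Module.Finite R S]

attribute [local instance] Ideal.Quotient.field

/-- The norm commutes with reduction modulo the maximal ideal (the analogue of Mathlib's
`Algebra.trace_quotient_mk`). -/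
theorem norm_quotient_mk [IsLocalRing R] (x : S) :
    Algebra.norm (R ⧸ maximalIdeal R)
        (Ideal.Quotient.mk (Ideal.map (algebraMap R S) (maximalIdeal R)) x) =
      Ideal.Quotient.mk (maximalIdeal R) (Algebra.norm R x) := by
  classical
  let ι := Module.Free.ChooseBasisIndex R S
  let b : Module.Basis ι R S := Module.Free.chooseBasis R S
  rw [Algebra.norm_eq_matrix_det b, Algebra.norm_eq_matrix_det (basisQuotient b),
    RingHom.map_det]
  congr 1
  ext i j
  simp only [Algebra.leftMulMatrix_apply, Algebra.coe_lmul_eq_mul, LinearMap.toMatrix_apply,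
    basisQuotient_apply, LinearMap.mul_apply', RingHom.mapMatrix_apply, Matrix.map_apply,
    ← map_mul, basisQuotient_repr]

end Quotient

section Unramified

variable {A B : Type*} [CommRing A] [IsLocalRing A] [CommRing B] [Algebra A B]
variable [Module.Free A B] [Module.Finite A B]

attribute [local instance] Ideal.Quotient.field

/-- In an unramified finite free extension of a local ring with finite residue field, some
element has trace `1`. -/
theorem exists_trace_eq_one_of_unramified [Finite (ResidueField A)]
    (hmax : (Ideal.map (algebraMap A B) (maximalIdeal A)).IsMaximal) :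
    ∃ x₀ : B, Algebra.trace A B x₀ = 1 := by
  have := hmax
  have : Finite (A ⧸ maximalIdeal A) := ‹Finite (ResidueField A)›
  have : Module.Finite (A ⧸ maximalIdeal A) (B ⧸ Ideal.map (algebraMap A B) (maximalIdeal A)) :=
    Module.Finite.of_restrictScalars_finite A _ _
  have : Finite (B ⧸ Ideal.map (algebraMap A B) (maximalIdeal A)) :=
    Module.finite_of_finite (A ⧸ maximalIdeal A)
  obtain ⟨y, hy⟩ := Algebra.trace_surjective (A ⧸ maximalIdeal A)
    (B ⧸ Ideal.map (algebraMap A B) (maximalIdeal A)) 1
  obtain ⟨x, rfl⟩ := Ideal.Quotient.mk_surjective y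
  rw [Algebra.trace_quotient_mk] at hy
  have hunit : IsUnit (Algebra.trace A B x) := by
    by_contra h
    have hmem : Algebra.trace A B x ∈ maximalIdeal A := (mem_maximalIdeal _).mpr h
    rw [Ideal.Quotient.eq_zero_iff_mem.mpr hmem] at hy
    exact zero_ne_one hy
  obtain ⟨w, hw⟩ := hunit
  refine ⟨(↑w⁻¹ : A) • x, ?_⟩
  rw [map_smul, ← hw, smul_eq_mul, Units.inv_mul]

/-- **Norm of units in an unramified extension is surjective.**  `A` complete local with finite
residue field, `B` finite free over `A` with `𝔪_A B` maximal. -/
theorem exists_unit_norm_eq_of_unramified [IsAdicComplete (maximalIdeal A) A]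
    [Finite (ResidueField A)]
    (hmax : (Ideal.map (algebraMap A B) (maximalIdeal A)).IsMaximal) (u : Aˣ) :
    ∃ v : Bˣ, Algebra.norm A (v : B) = u := by
  obtain ⟨x₀, hx₀⟩ := exists_trace_eq_one_of_unramified (A := A) (B := B) hmax
  have := hmax
  have : Finite (A ⧸ maximalIdeal A) := ‹Finite (ResidueField A)›
  have : Module.Finite (A ⧸ maximalIdeal A) (B ⧸ Ideal.map (algebraMap A B) (maximalIdeal A)) :=
    Module.Finite.of_restrictScalars_finite A _ _
  have : Finite (B ⧸ Ideal.map (algebraMap A B) (maximalIdeal A)) :=
    Module.finite_of_finite (A ⧸ maximalIdeal A)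
  obtain ⟨y, hy⟩ := FiniteField.norm_surjective (A ⧸ maximalIdeal A)
    (B ⧸ Ideal.map (algebraMap A B) (maximalIdeal A)) (Ideal.Quotient.mk _ (u : A))
  obtain ⟨v₀, rfl⟩ := Ideal.Quotient.mk_surjective y
  rw [norm_quotient_mk, Ideal.Quotient.eq] at hy
  have hv₀ : (u : A) - Algebra.norm A v₀ ∈ maximalIdeal A := by
    have := (maximalIdeal A).neg_mem hy
    simpa using this
  obtain ⟨v, hv, -⟩ := exists_norm_eq_of_trace_eq_one (maximalIdeal A) hx₀ u v₀ hv₀
  have hvu : IsUnit v := isUnit_of_isUnit_norm (A := A) (by rw [hv]; exact u.isUnit)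
  exact ⟨hvu.unit, by simpa using hv⟩

theorem unitsMap_norm_surjective_of_unramified [IsAdicComplete (maximalIdeal A) A]
    [Finite (ResidueField A)]
    (hmax : (Ideal.map (algebraMap A B) (maximalIdeal A)).IsMaximal) :
    Function.Surjective (Units.map (Algebra.norm A : B →* A)) := by
  intro u
  obtain ⟨v, hv⟩ := exists_unit_norm_eq_of_unramified (B := B) hmax u
  exact ⟨v, Units.ext (by simpa using hv)⟩

/-- Version for local rings `B`: hypothesis `𝔪_A B = 𝔪_B`. -/
theorem unitsMap_norm_surjective_of_map_maximalIdeal_eq [IsLocalRing B]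
    [IsAdicComplete (maximalIdeal A) A] [Finite (ResidueField A)]
    (hunr : Ideal.map (algebraMap A B) (maximalIdeal A) = maximalIdeal B) :
    Function.Surjective (Units.map (Algebra.norm A : B →* A)) :=
  unitsMap_norm_surjective_of_unramified (hunr ▸ inferInstance)

end Unramified

end Fermat.Agent.S55.L.H661
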