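import Fermat.Agent.S55.L.H661.IntClosure
import Fermat.Agent.S55.L.H661.UnramNorm

/-!
# Norms of units in unramified extensions of complete discretely valued fields
(S55, layer L, leaf UR4 -- field form)

`R` a complete DVR with finite residue field, `K = Frac R`, `L / K` finite separable.
"Unramified" is expressed as `Lˣ = Kˣ · U_L`.  Then every unit of `R` is the norm of a unit of
the ring of integers of `L`.
-/

set_option linter.unusedSectionVars false

namespace Fermat.Agent.S55.L.H661

open IsLocalRing

section Core

variable (R K L : Type) [CommRing R] [IsDomain R] [IsDiscreteValuationRing R]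
  [IsAdicComplete (maximalIdeal R) R] [Finite (ResidueField R)]
  [Field K] [Algebra R K] [IsFractionRing R K]
  [Field L] [Algebra K L] [FiniteDimensional K L] [Algebra.IsSeparable K L]
  [Algebra R L] [IsScalarTower R K L]

/-- If `Lˣ = Kˣ · U_L` then the maximal ideal of `R` generates the maximal ideal of the
integral closure of `R` in `L`. -/
theorem map_maximalIdeal_eq_of_isUnram
    (hunr : ∀ x : Lˣ, ∃ y : Kˣ, IsIntegral R ((x : L) * (algebraMap K L (y : K))⁻¹) ∧
      IsIntegral R ((algebraMap K L (y : K)) * ((x⁻¹ : Lˣ) : L)))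
    [IsLocalRing (integralClosure R L)] :
    (maximalIdeal R).map (algebraMap R (integralClosure R L)) =
      maximalIdeal (integralClosure R L) := by
  have hdvr : IsDiscreteValuationRing (integralClosure R L) :=
    intClosure_isDVR R K L (integralClosure R L)
  refine le_antisymm (intClosure_map_maximalIdeal_le R K L (integralClosure R L)) ?_
  obtain ⟨ϖ, hϖ⟩ := IsDiscreteValuationRing.exists_irreducible (integralClosure R L)
  rw [hϖ.maximalIdeal_eq, Ideal.span_singleton_le_iff_mem]
  have hϖ0 : (ϖ : L) ≠ 0 := by
    intro h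
    exact hϖ.ne_zero (Subtype.ext h)
  obtain ⟨y, hz, hz'⟩ := hunr (Units.mk0 (ϖ : L) hϖ0)
  rw [Units.val_mk0] at hz
  have hy0 : algebraMap K L (y : K) ≠ 0 := by
    simp
  -- the unit `z = ϖ / y` of the integral closure
  let z : integralClosure R L := ⟨(ϖ : L) * (algebraMap K L (y : K))⁻¹, hz⟩
  let z' : integralClosure R L :=
    ⟨algebraMap K L (y : K) * ((Units.mk0 (ϖ : L) hϖ0)⁻¹ : Lˣ), hz'⟩
  have hzz' : z * z' = 1 := by
    apply Subtype.ext
    change (ϖ : L) * (algebraMap K L (y : K))⁻¹ *
      (algebraMap K L (y : K) * ((Units.mk0 (ϖ : L) hϖ0)⁻¹ : Lˣ)) = 1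
    rw [Units.val_inv_eq_inv_val, Units.val_mk0]
    field_simp
  -- `y` is integral, hence in `R`
  have hyint : IsIntegral R (algebraMap K L (y : K)) := by
    have h1 : algebraMap K L (y : K) = ((ϖ * z' : integralClosure R L) : L) := by
      change algebraMap K L (y : K) =
        (ϖ : L) * (algebraMap K L (y : K) * ((Units.mk0 (ϖ : L) hϖ0)⁻¹ : Lˣ))
      rw [Units.val_inv_eq_inv_val, Units.val_mk0]
      field_simp
    rw [h1]
    exact (ϖ * z').2
  have hyintK : IsIntegral R (y : K) :=
    (isIntegral_algebraMap_iff (algebraMap K L).injective).mp hyint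
  obtain ⟨r, hr⟩ := IsIntegrallyClosed.isIntegral_iff.mp hyintK
  have hrz : algebraMap R (integralClosure R L) r * z = ϖ := by
    apply Subtype.ext
    change algebraMap R L r * ((ϖ : L) * (algebraMap K L (y : K))⁻¹) = ϖ
    rw [IsScalarTower.algebraMap_apply R K L, hr]
    field_simp
  have hrnonunit : r ∈ maximalIdeal R := by
    rw [mem_maximalIdeal, mem_nonunits_iff]
    intro hru
    have h1 : IsUnit (algebraMap R (integralClosure R L) r) := hru.map _
    have h2 : IsUnit z := IsUnit.of_mul_eq_one _ hzz'
    exact hϖ.not_isUnit (hrz ▸ h1.mul h2)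
  rw [← hrz]
  exact Ideal.mul_mem_right _ _ (Ideal.mem_map_of_mem _ hrnonunit)

/-- **UR4, field form.** -/
theorem exists_unit_norm_eq_of_isUnram
    (hunr : ∀ x : Lˣ, ∃ y : Kˣ, IsIntegral R ((x : L) * (algebraMap K L (y : K))⁻¹) ∧
      IsIntegral R ((algebraMap K L (y : K)) * ((x⁻¹ : Lˣ) : L)))
    (u : Rˣ) :
    ∃ w : Lˣ, IsIntegral R (w : L) ∧ IsIntegral R ((w⁻¹ : Lˣ) : L) ∧
      Algebra.norm K (w : L) = algebraMap R K u := by
  have hloc : IsLocalRing (integralClosure R L) :=
    intClosure_isLocalRing R K L (integralClosure R L)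
  have hfin : Module.Finite R (integralClosure R L) :=
    intClosure_finite R K L (integralClosure R L)
  have hfree : Module.Free R (integralClosure R L) :=
    intClosure_free R K L (integralClosure R L)
  have hmax : ((maximalIdeal R).map (algebraMap R (integralClosure R L))).IsMaximal := by
    rw [map_maximalIdeal_eq_of_isUnram R K L hunr]
    infer_instance
  obtain ⟨v, hv⟩ := exists_unit_norm_eq_of_unramified (A := R) (B := integralClosure R L) hmax u
  have hlocz : IsLocalization (Algebra.algebraMapSubmonoid (integralClosure R L)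
      (nonZeroDivisors R)) L := IsIntegralClosure.isLocalization R K L (integralClosure R L)
  have hnorm := Algebra.norm_localization (R := R) (S := integralClosure R L) (Rₘ := K)
    (Sₘ := L) (nonZeroDivisors R) (v : integralClosure R L)
  refine ⟨Units.map (algebraMap (integralClosure R L) L).toMonoidHom v, ?_, ?_, ?_⟩
  · exact (v : integralClosure R L).2
  · have : ((Units.map (algebraMap (integralClosure R L) L).toMonoidHom v)⁻¹ : Lˣ) =
        Units.map (algebraMap (integralClosure R L) L).toMonoidHom v⁻¹ := by
      rw [map_inv]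
    rw [this]
    exact ((v⁻¹ : (integralClosure R L)ˣ) : integralClosure R L).2
  · change Algebra.norm K (algebraMap (integralClosure R L) L (v : integralClosure R L)) = _
    rw [hnorm, hv]

end Core

end Fermat.Agent.S55.L.H661
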