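import Fermat.Agent.S55.Local.Spec
import Fermat.Agent.S55.L.H661.UnramNormField

/-!
# UR4 : `Fermat.Agent.S55.Local.UnramNormUnitsStatement`

In an unramified extension of local fields every unit of `K` is the norm of a unit of `L`.
(helper715's frozen interface, exact statement.)
-/

set_option linter.unusedSectionVars false
set_option linter.style.haveILetI false

namespace Fermat.Agent.S55.L.H661

open IsLocalRing Fermat.Agent.S55.Local

/-- **UR4** (exact frozen statement). -/
theorem unramNormUnits : Fermat.Agent.S55.Local.UnramNormUnitsStatement := by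
  intro A F _ _ _ _ _ _ _ _ _ K _ _ _ L _ _ _ _ _ _ hunr u hu
  -- algebra structures over `A`
  letI algAK : Algebra A K := (toL A F K).toAlgebra
  haveI towAFK : IsScalarTower A F K := IsScalarTower.of_algebraMap_eq (fun _ => rfl)
  letI algAL : Algebra A L := (toL A F L).toAlgebra
  haveI towAFL : IsScalarTower A F L := IsScalarTower.of_algebraMap_eq (fun _ => rfl)
  haveI towAKL : IsScalarTower A K L := IsScalarTower.of_algebraMap_eq (fun a => by
    change algebraMap F L (algebraMap A F a) = algebraMap K L (algebraMap F K (algebraMap A F a))
    rw [← IsScalarTower.algebraMap_apply F K L])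
  haveI : CharZero K := charZero_of_injective_algebraMap (algebraMap F K).injective
  haveI : CharZero L := charZero_of_injective_algebraMap (algebraMap F L).injective
  -- the ring of integers of `K`
  haveI hRloc : IsLocalRing (integralClosure A K) :=
    intClosure_isLocalRing A F K (integralClosure A K)
  haveI hRdvr : IsDiscreteValuationRing (integralClosure A K) :=
    intClosure_isDVR A F K (integralClosure A K)
  haveI hRcomp : IsAdicComplete (maximalIdeal (integralClosure A K)) (integralClosure A K) :=
    intClosure_isAdicComplete A F K (integralClosure A K)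
  haveI hRfin : Finite (ResidueField (integralClosure A K)) :=
    intClosure_finite_residueField A F K (integralClosure A K)
  haveI hRfrac : IsFractionRing (integralClosure A K) K :=
    intClosure_isFractionRing A F K (integralClosure A K)
  haveI hRint : Algebra.IsIntegral A (integralClosure A K) :=
    intClosure_isIntegral A F K (integralClosure A K)
  -- integrality over `A` and over the ring of integers of `K` agree
  have hint : ∀ x : L, IsIntegral (integralClosure A K) x ↔ IsInt A F L x := by
    intro x
    constructor
    · intro hx
      exact isIntegral_trans (R := A) (A := integralClosure A K) x hx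
    · intro hx
      exact IsIntegral.tower_top (R := A) (A := integralClosure A K) hx
  -- the unramifiedness hypothesis
  have hunr' : ∀ x : Lˣ, ∃ y : Kˣ,
      IsIntegral (integralClosure A K) ((x : L) * (algebraMap K L (y : K))⁻¹) ∧
      IsIntegral (integralClosure A K) ((algebraMap K L (y : K)) * ((x⁻¹ : Lˣ) : L)) := by
    intro x
    obtain ⟨y, hy⟩ := hunr x
    rw [mem_intUnits] at hy
    refine ⟨y, (hint _).mpr ?_, (hint _).mpr ?_⟩
    · have := hy.1
      simpa [unitsIncl, Units.val_inv_eq_inv_val] using this
    · have := hy.2
      simpa [unitsIncl, Units.val_inv_eq_inv_val, mul_comm] using this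
  -- the unit `u` of the ring of integers of `K`
  rw [mem_intUnits] at hu
  let u₀ : integralClosure A K := ⟨(u : K), hu.1⟩
  let u₁ : integralClosure A K := ⟨((u⁻¹ : Kˣ) : K), hu.2⟩
  have hu01 : u₀ * u₁ = 1 := Subtype.ext (by change (u : K) * ((u⁻¹ : Kˣ) : K) = 1; simp)
  have hu10 : u₁ * u₀ = 1 := by rw [mul_comm]; exact hu01
  let uR : (integralClosure A K)ˣ := ⟨u₀, u₁, hu01, hu10⟩
  obtain ⟨w, hw1, hw2, hw3⟩ :=
    exists_unit_norm_eq_of_isUnram (integralClosure A K) K L hunr' uR
  refine ⟨w, ?_, ?_⟩
  · rw [mem_intUnits]
    exact ⟨(hint _).mp hw1, (hint _).mp hw2⟩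
  · apply Units.ext
    rw [normUnits_coe, hw3]
    rfl

end Fermat.Agent.S55.L.H661
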