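import Mathlib
import Fermat.Prelude.Thm_Algebra_finite_maximalSpectrum_and_bijective_localization_of_module_finite
import Fermat.Prelude.Thm_IsLocalRing_isAdicComplete_of_module_finite

/-!
# The ring of integers of a finite extension of a complete discretely valued field
(S55, layer L, foundation "LF0")

`A` a complete discrete valuation ring, `K = Frac A`, `L / K` a finite separable extension and
`C` the integral closure of `A` in `L` (any model, `[IsIntegralClosure C A L]`).  Then `C` is

* a domain, finite and free over `A`                       (`intClosure_finite`, `intClosure_free`)
* a local ring                                              (`intClosure_isLocalRing`)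
* a discrete valuation ring                                 (`intClosure_isDVR`)
* complete for its maximal ideal                            (`intClosure_isAdicComplete`)
* with finite residue field if `A` has one                  (`intClosure_finite_residueField`)
* with fraction field `L`                                   (`intClosure_isFractionRing`)

and `A → C` is a local homomorphism.  Everything is in `Type` (the Prelude lemmas used for
"finite over complete local is a product of local rings" are stated in `Type`).
-/

set_option linter.unusedSectionVars false

namespace Fermat.Agent.S55.L.H661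

open IsLocalRing

section DomainLocal

/-- A domain which is module-finite over a complete Noetherian local ring is local. -/
theorem isLocalRing_of_finite_of_isDomain (A : Type) [CommRing A] [IsLocalRing A]
    [IsNoetherianRing A] [IsAdicComplete (maximalIdeal A) A]
    (C : Type) [CommRing C] [IsDomain C] [Algebra A C] [Module.Finite A C] : IsLocalRing C := by
  classical
  obtain ⟨-, hbij, -, -⟩ :=
    Algebra.finite_maximalSpectrum_and_bijective_localization_of_module_finite (𝒪 := A) C
  set φ : C →+* (∀ I : MaximalSpectrum C, Localization.AtPrime I.asIdeal) :=
    RingHom.pi fun I : MaximalSpectrum C => algebraMap C (Localization.AtPrime I.asIdeal) with hφ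
  have huniq : ∀ I J : MaximalSpectrum C, I = J := by
    intro I J
    by_contra hIJ
    let e : ∀ I : MaximalSpectrum C, Localization.AtPrime I.asIdeal := Pi.single I 1
    obtain ⟨x, hx⟩ := hbij.2 e
    obtain ⟨y, hy⟩ := hbij.2 (1 - e)
    have hxy : x * y = 0 := by
      apply hbij.1
      rw [map_mul, hx, hy, map_zero]
      funext K
      by_cases hK : K = I
      · subst hK
        simp [e]
      · simp [e, Pi.single_eq_of_ne hK]
    rcases mul_eq_zero.mp hxy with h0 | h0
    · have : e I = 0 := by rw [← hx, h0, map_zero]; rfl
      simp [e] at this
    · have : (1 - e) J = 0 := by rw [← hy, h0, map_zero]; rfl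
      have hJ : e J = 0 := Pi.single_eq_of_ne (Ne.symm hIJ) _
      simp [hJ] at this
  obtain ⟨m, hm⟩ := Ideal.exists_maximal C
  refine IsLocalRing.of_unique_max_ideal ⟨m, hm, fun J hJ => ?_⟩
  exact congrArg MaximalSpectrum.asIdeal (huniq ⟨J, hJ⟩ ⟨m, hm⟩)

end DomainLocal

section IntClosure

variable (A K : Type) [CommRing A] [IsDomain A] [IsDiscreteValuationRing A]
  [IsAdicComplete (maximalIdeal A) A] [Field K] [Algebra A K] [IsFractionRing A K]
  (L : Type) [Field L] [Algebra K L] [FiniteDimensional K L] [Algebra.IsSeparable K L]
  [Algebra A L] [IsScalarTower A K L]
  (C : Type) [CommRing C] [Algebra C L] [IsIntegralClosure C A L] [Algebra A C]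
  [IsScalarTower A C L]

include A K L

theorem intClosure_isDomain : IsDomain C :=
  (IsIntegralClosure.algebraMap_injective C A L).isDomain _

theorem intClosure_finite : Module.Finite A C := IsIntegralClosure.finite A K L C

theorem intClosure_faithfulSMul : FaithfulSMul A C := by
  rw [faithfulSMul_iff_algebraMap_injective]
  intro a b hab
  have h1 : algebraMap A L a = algebraMap A L b := by
    rw [IsScalarTower.algebraMap_apply A C L, IsScalarTower.algebraMap_apply A C L, hab]
  have hinj : Function.Injective (algebraMap A L) := by
    rw [IsScalarTower.algebraMap_eq A K L]
    exact (algebraMap K L).injective.comp (IsFractionRing.injective A K)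
  exact hinj h1

theorem intClosure_isTorsionFree : Module.IsTorsionFree A C :=
  haveI : Module.IsTorsionFree A L := .trans_faithfulSMul A K L
  IsIntegralClosure.isTorsionFree A L

theorem intClosure_free : Module.Free A C :=
  haveI : Module.IsTorsionFree A L := .trans_faithfulSMul A K L
  IsIntegralClosure.module_free A K L C

theorem intClosure_isIntegral : Algebra.IsIntegral A C := IsIntegralClosure.isIntegral_algebra A L

theorem intClosure_isLocalRing : IsLocalRing C :=
  have := intClosure_isDomain A K L C
  have := intClosure_finite A K L C
  isLocalRing_of_finite_of_isDomain A C

theorem intClosure_isDedekindDomain : IsDedekindDomain C := by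
  have := intClosure_isDomain A K L C
  exact IsIntegralClosure.isDedekindDomain A K L C

theorem intClosure_not_isField : ¬ IsField C := by
  have := intClosure_isDomain A K L C
  have := intClosure_isIntegral A K L C
  have := intClosure_faithfulSMul A K L C
  intro h
  exact IsDiscreteValuationRing.not_isField A
    ((Algebra.IsIntegral.isField_iff_isField (FaithfulSMul.algebraMap_injective A C)).mpr h)

theorem intClosure_isDVR [IsDomain C] : IsDiscreteValuationRing C := by
  have := intClosure_isLocalRing A K L C
  have hD : IsDedekindDomain C := intClosure_isDedekindDomain A K L C
  exact ((IsDiscreteValuationRing.TFAE C (intClosure_not_isField A K L C)).out 0 2).mpr hD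

theorem intClosure_isLocalHom [IsLocalRing C] : IsLocalHom (algebraMap A C) := by
  have := intClosure_isIntegral A K L C
  have := intClosure_faithfulSMul A K L C
  infer_instance

theorem intClosure_isAdicComplete [IsLocalRing C] : IsAdicComplete (maximalIdeal C) C := by
  have := intClosure_finite A K L C
  have := intClosure_isLocalHom A K L C
  exact IsLocalRing.isAdicComplete_of_module_finite (𝒪 := A) (T := C)

theorem intClosure_map_maximalIdeal_le [IsLocalRing C] :
    (maximalIdeal A).map (algebraMap A C) ≤ maximalIdeal C := by
  have := intClosure_isLocalHom A K L C
  exact IsLocalRing.map_maximalIdeal_le (algebraMap A C)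

theorem intClosure_finite_residueField [IsLocalRing C] [Finite (ResidueField A)] :
    Finite (ResidueField C) := by
  have := intClosure_finite A K L C
  have hfinA : Finite (A ⧸ maximalIdeal A) := ‹Finite (ResidueField A)›
  have h1 : Module.Finite (A ⧸ maximalIdeal A) (C ⧸ (maximalIdeal A).map (algebraMap A C)) :=
    Module.Finite.of_restrictScalars_finite A _ _
  have h2 : Finite (C ⧸ (maximalIdeal A).map (algebraMap A C)) :=
    Module.finite_of_finite (A ⧸ maximalIdeal A)
  have hle := intClosure_map_maximalIdeal_le A K L C
  exact Finite.of_surjective (Ideal.Quotient.factor hle) (Ideal.Quotient.factor_surjective hle)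

theorem intClosure_isFractionRing : IsFractionRing C L := by
  have := intClosure_isDomain A K L C
  exact IsIntegralClosure.isFractionRing_of_finite_extension A K L C

end IntClosure

end Fermat.Agent.S55.L.H661
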