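import Mathlib

/-!
# Hensel-type lifting for the norm of a finite free algebra  (S55, layer L, leaf UNR)

`A` a commutative ring, `B` a finite free `A`-algebra, `I` an ideal of `A` with `A` being
`I`-adically complete.  If some element of `B` has trace `1`, then every unit `u` of `A` which
is a norm modulo `I` is a norm.

Main results (all Mathlib-only):

* `norm_sub_norm_mem` : `x - y ∈ J B → N x - N y ∈ J`.
* `norm_one_add_smul` : `N (1 + a • x) = 1 + a * Tr x + c * a ^ 2`.
* `isPrecomplete_of_basis` : a finite free module over an `I`-precomplete ring is precomplete.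
* `exists_norm_eq_of_trace_eq_one` : the lifting statement.
-/

namespace Fermat.Agent.S55.L.H661

open Module

section Coordinates

variable {A M : Type*} [CommRing A] [AddCommGroup M] [Module A M]
variable {ι : Type*}

/-- Coordinates of an element of `J • ⊤` lie in `J`. -/
theorem repr_mem_of_mem_smul_top (b : Basis ι A M) (J : Ideal A) {x : M}
    (hx : x ∈ (J • ⊤ : Submodule A M)) (i : ι) : b.repr x i ∈ J := by
  induction hx using Submodule.smul_induction_on' with
  | smul r hr m _ =>
    rw [map_smul, Finsupp.smul_apply, smul_eq_mul]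
    exact J.mul_mem_right _ hr
  | add x _ y _ hx hy =>
    rw [map_add, Finsupp.add_apply]
    exact J.add_mem hx hy

/-- An element all of whose coordinates lie in `J` is in `J • ⊤`. -/
theorem mem_smul_top_of_repr_mem [Fintype ι] (b : Basis ι A M) (J : Ideal A) {x : M}
    (hx : ∀ i, b.repr x i ∈ J) : x ∈ (J • ⊤ : Submodule A M) := by
  rw [← b.sum_repr x]
  exact Submodule.sum_mem _ fun i _ => Submodule.smul_mem_smul (hx i) Submodule.mem_top

theorem mem_smul_top_iff_repr_mem [Fintype ι] (b : Basis ι A M) (J : Ideal A) {x : M} :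
    x ∈ (J • ⊤ : Submodule A M) ↔ ∀ i, b.repr x i ∈ J :=
  ⟨fun h i => repr_mem_of_mem_smul_top b J h i, mem_smul_top_of_repr_mem b J⟩

/-- A module with a finite basis over an `I`-precomplete ring is `I`-precomplete. -/
theorem isPrecomplete_of_basis [Fintype ι] (b : Basis ι A M) (I : Ideal A)
    [IsPrecomplete I A] : IsPrecomplete I M := by
  refine ⟨fun f hf => ?_⟩
  have hcoord : ∀ i : ι, ∃ L : A, ∀ n, b.repr (f n) i ≡ L [SMOD (I ^ n • ⊤ : Submodule A A)] := by
    intro i
    refine IsPrecomplete.prec ‹_› (f := fun n => b.repr (f n) i) ?_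
    intro m n hmn
    have h := hf hmn
    rw [SModEq.sub_mem] at h ⊢
    have := repr_mem_of_mem_smul_top b (I ^ m) h i
    rw [map_sub, Finsupp.sub_apply] at this
    simpa using this
  choose L hL using hcoord
  refine ⟨∑ i, L i • b i, fun n => ?_⟩
  rw [SModEq.sub_mem]
  apply mem_smul_top_of_repr_mem b
  intro i
  have h := hL i n
  rw [SModEq.sub_mem] at h
  have h' : b.repr (f n) i - L i ∈ I ^ n := by simpa using h
  have hrepr : b.repr (∑ j, L j • b j) i = L i := by
    classical
    simp [map_sum, Finsupp.single_apply]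
  rw [map_sub, Finsupp.sub_apply, hrepr]
  exact h'

end Coordinates

section Norm

variable {A B : Type*} [CommRing A] [CommRing B] [Algebra A B]
variable [Module.Free A B] [Module.Finite A B]

/-- The norm is compatible with congruences: `x ≡ y mod J B` implies `N x ≡ N y mod J`. -/
theorem norm_sub_norm_mem (J : Ideal A) {x y : B}
    (h : x - y ∈ J.map (algebraMap A B)) :
    Algebra.norm A x - Algebra.norm A y ∈ J := by
  classical
  let b := Module.Free.chooseBasis A B
  let φ := Ideal.Quotient.mk J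
  let ψ : B →+* Matrix (Module.Free.ChooseBasisIndex A B) (Module.Free.ChooseBasisIndex A B)
      (A ⧸ J) := φ.mapMatrix.comp (Algebra.leftMulMatrix b).toRingHom
  have hker : J.map (algebraMap A B) ≤ RingHom.ker ψ := by
    rw [Ideal.map_le_iff_le_comap]
    intro a ha
    rw [Ideal.mem_comap, RingHom.mem_ker]
    have h1 : Algebra.leftMulMatrix b (algebraMap A B a) = algebraMap A _ a :=
      (Algebra.leftMulMatrix b).commutes a
    change φ.mapMatrix (Algebra.leftMulMatrix b (algebraMap A B a)) = 0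
    rw [h1]
    ext i j
    simp only [RingHom.mapMatrix_apply, Matrix.map_apply, Matrix.algebraMap_matrix_apply,
      Matrix.zero_apply]
    split_ifs
    · simpa [φ] using Ideal.Quotient.eq_zero_iff_mem.mpr ha
    · simp
  have hψ : ψ x = ψ y := by
    have := hker h
    rw [RingHom.mem_ker, map_sub, sub_eq_zero] at this
    exact this
  rw [← Ideal.Quotient.eq, Algebra.norm_eq_matrix_det b, Algebra.norm_eq_matrix_det b,
    RingHom.map_det, RingHom.map_det]
  exact congrArg Matrix.det hψ

/-- Same with the congruence stated in the `A`-submodule `J • ⊤` of `B`. -/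
theorem norm_sub_norm_mem' (J : Ideal A) {x y : B}
    (h : x - y ∈ (J • ⊤ : Submodule A B)) :
    Algebra.norm A x - Algebra.norm A y ∈ J := by
  apply norm_sub_norm_mem J
  rw [Ideal.smul_top_eq_map] at h
  exact h

/-- First-order expansion of the norm at `1`. -/
theorem norm_one_add_smul (a : A) (x : B) :
    ∃ c : A, Algebra.norm A (1 + a • x) = 1 + a * Algebra.trace A B x + c * a ^ 2 := by
  classical
  let b := Module.Free.chooseBasis A B
  have h := Matrix.det_one_add_smul a (Algebra.leftMulMatrix b x)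
  refine ⟨Polynomial.eval a (1 + (Polynomial.X : Polynomial A) •
    ((Algebra.leftMulMatrix b) x).map ⇑Polynomial.C).det.divX.divX, ?_⟩
  rw [Algebra.norm_eq_matrix_det b, Algebra.trace_eq_matrix_trace b, map_add, map_one, map_smul,
    h, mul_comm a]

/-- An element whose norm is a unit is a unit. -/
theorem isUnit_of_isUnit_norm {x : B} (h : IsUnit (Algebra.norm A x)) : IsUnit x := by
  rw [Algebra.norm_apply] at h
  have h2 := (LinearMap.isUnit_iff_isUnit_det (Algebra.lmul A B x)).mpr h
  obtain ⟨g, hg⟩ := h2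
  have hsurj : Function.Surjective (Algebra.lmul A B x) := by
    rw [← hg]
    intro z
    refine ⟨(g⁻¹ : (B →ₗ[A] B)ˣ).1 z, ?_⟩
    have := LinearMap.congr_fun g.mul_inv z
    exact this
  obtain ⟨y, hy⟩ := hsurj 1
  exact IsUnit.of_mul_eq_one y (by simpa using hy)

end Norm

section Lifting

variable {A B : Type*} [CommRing A] [CommRing B] [Algebra A B]
variable [Module.Free A B] [Module.Finite A B]

/-- The approximating sequence: `v (m+1) = v m * (1 + (u⁻¹ * (u - N (v m))) • x₀)`. -/
noncomputable def normLiftSeq (u : Aˣ) (x₀ v₀ : B) : ℕ → B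
  | 0 => v₀
  | (m + 1) => normLiftSeq u x₀ v₀ m *
      (1 + ((↑u⁻¹ : A) * ((u : A) - Algebra.norm A (normLiftSeq u x₀ v₀ m))) • x₀)

omit [Module.Free A B] [Module.Finite A B] in
theorem normLiftSeq_zero (u : Aˣ) (x₀ v₀ : B) : normLiftSeq u x₀ v₀ 0 = v₀ := rfl

omit [Module.Free A B] [Module.Finite A B] in
theorem normLiftSeq_succ (u : Aˣ) (x₀ v₀ : B) (m : ℕ) :
    normLiftSeq u x₀ v₀ (m + 1) = normLiftSeq u x₀ v₀ m *
      (1 + ((↑u⁻¹ : A) * ((u : A) - Algebra.norm A (normLiftSeq u x₀ v₀ m))) • x₀) := rfl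

/-- One step of the approximation squares the error ideal. -/
theorem norm_step_mem (J : Ideal A) (u : Aˣ) {x₀ : B} (hx₀ : Algebra.trace A B x₀ = 1) (w : B)
    (hw : (u : A) - Algebra.norm A w ∈ J) :
    (u : A) - Algebra.norm A (w * (1 + ((↑u⁻¹ : A) * ((u : A) - Algebra.norm A w)) • x₀))
      ∈ J * J := by
  set e : A := (u : A) - Algebra.norm A w with he
  set a : A := (↑u⁻¹ : A) * e with ha
  obtain ⟨c, hc⟩ := norm_one_add_smul a x₀
  rw [map_mul, hc, hx₀, mul_one]
  have haJ : a ∈ J := J.mul_mem_left _ hw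
  have hua : (u : A) * a = e := by
    rw [ha, ← mul_assoc, Units.mul_inv, one_mul]
  have hN : Algebra.norm A w = (u : A) - e := by rw [he]; ring
  have key : (u : A) - Algebra.norm A w * (1 + a + c * a ^ 2) =
      a * (e - Algebra.norm A w * c * a) := by
    rw [hN]
    have : (u : A) - ((u : A) - e) * (1 + a + c * a ^ 2)
        = e - (u : A) * a + a * (e - ((u : A) - e) * c * a) := by ring
    rw [this, hua, sub_self, zero_add]
  rw [key]
  exact Ideal.mul_mem_mul haJ (J.sub_mem hw (J.mul_mem_left _ haJ))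

theorem normLiftSeq_error_mem (I : Ideal A) (u : Aˣ) {x₀ : B}
    (hx₀ : Algebra.trace A B x₀ = 1) (v₀ : B) (hv₀ : (u : A) - Algebra.norm A v₀ ∈ I) (m : ℕ) :
    (u : A) - Algebra.norm A (normLiftSeq u x₀ v₀ m) ∈ I ^ (m + 1) := by
  induction m with
  | zero => simpa [normLiftSeq_zero] using hv₀
  | succ m ih =>
    rw [normLiftSeq_succ]
    have h := norm_step_mem (I ^ (m + 1)) u hx₀ _ ih
    have hle : I ^ (m + 1) * I ^ (m + 1) ≤ I ^ (m + 1 + 1) := by
      rw [← pow_add]
      exact Ideal.pow_le_pow_right (by omega)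
    exact hle h

theorem normLiftSeq_succ_sub_mem (I : Ideal A) (u : Aˣ) {x₀ : B}
    (hx₀ : Algebra.trace A B x₀ = 1) (v₀ : B) (hv₀ : (u : A) - Algebra.norm A v₀ ∈ I) (m : ℕ) :
    normLiftSeq u x₀ v₀ (m + 1) - normLiftSeq u x₀ v₀ m ∈ (I ^ (m + 1) • ⊤ : Submodule A B) := by
  rw [normLiftSeq_succ]
  have h := normLiftSeq_error_mem I u hx₀ v₀ hv₀ m
  set w := normLiftSeq u x₀ v₀ m
  have : w * (1 + ((↑u⁻¹ : A) * ((u : A) - Algebra.norm A w)) • x₀) - w =
      ((↑u⁻¹ : A) * ((u : A) - Algebra.norm A w)) • (w * x₀) := by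
    rw [mul_add, mul_one, add_sub_cancel_left, mul_smul_comm]
  rw [this]
  exact Submodule.smul_mem_smul (Ideal.mul_mem_left _ _ h) Submodule.mem_top

theorem normLiftSeq_sub_mem (I : Ideal A) (u : Aˣ) {x₀ : B}
    (hx₀ : Algebra.trace A B x₀ = 1) (v₀ : B) (hv₀ : (u : A) - Algebra.norm A v₀ ∈ I)
    {m n : ℕ} (hmn : m ≤ n) :
    normLiftSeq u x₀ v₀ n - normLiftSeq u x₀ v₀ m ∈ (I ^ (m + 1) • ⊤ : Submodule A B) := by
  induction n, hmn using Nat.le_induction with
  | base => simp
  | succ n hmn ih =>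
    have h1 := normLiftSeq_succ_sub_mem I u hx₀ v₀ hv₀ n
    have hle : (I ^ (n + 1) • ⊤ : Submodule A B) ≤ I ^ (m + 1) • ⊤ :=
      Submodule.smul_mono_left (Ideal.pow_le_pow_right (by omega))
    have := Submodule.add_mem _ (hle h1) ih
    simpa using this

/-- **Hensel lifting for the norm.**  Let `B` be a finite free `A`-algebra containing an element
of trace `1`, and let `A` be `I`-adically complete.  If a unit `u` of `A` is congruent modulo `I`
to the norm of `v₀`, then `u` is the norm of some `v ≡ v₀ mod I B`. -/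
theorem exists_norm_eq_of_trace_eq_one (I : Ideal A) [IsAdicComplete I A]
    {x₀ : B} (hx₀ : Algebra.trace A B x₀ = 1) (u : Aˣ) (v₀ : B)
    (hv₀ : (u : A) - Algebra.norm A v₀ ∈ I) :
    ∃ v : B, Algebra.norm A v = u ∧ v - v₀ ∈ I.map (algebraMap A B) := by
  classical
  have : IsPrecomplete I B := isPrecomplete_of_basis (Module.Free.chooseBasis A B) I
  have hcauchy : ∀ {m n : ℕ}, m ≤ n →
      normLiftSeq u x₀ v₀ m ≡ normLiftSeq u x₀ v₀ n [SMOD (I ^ m • ⊤ : Submodule A B)] := by
    intro m n hmn
    rw [SModEq.sub_mem]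
    have h := normLiftSeq_sub_mem I u hx₀ v₀ hv₀ hmn
    have hle : (I ^ (m + 1) • ⊤ : Submodule A B) ≤ I ^ m • ⊤ :=
      Submodule.smul_mono_left (Ideal.pow_le_pow_right (by omega))
    have := Submodule.neg_mem _ (hle h)
    simpa using this
  obtain ⟨v, hv⟩ := IsPrecomplete.prec ‹IsPrecomplete I B› hcauchy
  refine ⟨v, ?_, ?_⟩
  · symm
    rw [IsHausdorff.eq_iff_smodEq (I := I)]
    intro n
    rw [SModEq.sub_mem]
    have h1 := normLiftSeq_error_mem I u hx₀ v₀ hv₀ n
    have h2 : Algebra.norm A (normLiftSeq u x₀ v₀ n) - Algebra.norm A v ∈ I ^ n := by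
      apply norm_sub_norm_mem'
      have := hv n
      rwa [SModEq.sub_mem] at this
    have h3 : (u : A) - Algebra.norm A v ∈ I ^ n := by
      have := (I ^ n).add_mem (Ideal.pow_le_pow_right (Nat.le_succ n) h1) h2
      simpa using this
    simpa using h3
  · have h1 := hv 1
    rw [SModEq.sub_mem, pow_one] at h1
    have h2 := normLiftSeq_sub_mem I u hx₀ v₀ hv₀ (Nat.zero_le 1)
    rw [zero_add, pow_one, normLiftSeq_zero] at h2
    have := Submodule.sub_mem _ h2 h1
    rw [Ideal.smul_top_eq_map] at this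
    simpa using this

end Lifting

end Fermat.Agent.S55.L.H661
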